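import Fermat.Agent.Deform.Matrix

/-!
# Burnside's theorem in dimension two

A family of matrices without a common eigenvector spans the matrix algebra
(`span_eq_top_of_not_hasCommonEigvec`), so absolutely irreducible representations do too
(`span_matrix_eq_top`).
-/

set_option autoImplicit false

noncomputable section

namespace Fermat.Agent.Deform

open Matrix Module

variable {K : Type} [Field K] {H : Type} [Monoid H]

/-- A family of matrices has a common eigenvector. -/
def HasCommonEigvec (M : H →* M2 K) : Prop :=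
  ∃ v : Fin 2 → K, v ≠ 0 ∧ ∀ h, ∃ c : K, (M h).mulVec v = c • v

omit [Monoid H] in
theorem eq_top_of_invariant {f : H → Module.End K (Fin 2 → K)} (W : Submodule K (Fin 2 → K))
    (hW : W ≠ ⊥) (hinv : ∀ h, ∀ w ∈ W, f h w ∈ W)
    (hno : ¬ ∃ v : Fin 2 → K, v ≠ 0 ∧ ∀ h, ∃ c : K, f h v = c • v) : W = ⊤ := by
  by_contra hne
  obtain ⟨v, hv, hv0⟩ := Submodule.exists_mem_ne_zero_of_ne_bot hW
  have h2 : finrank K W < 2 := by
    simpa [Module.finrank_fintype_fun_eq_card] using Submodule.finrank_lt hne
  have hle : K ∙ v ≤ W := (Submodule.span_singleton_le_iff_mem v W).mpr hv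
  have hspan : K ∙ v = W :=
    Submodule.eq_of_le_of_finrank_le hle (by rw [finrank_span_singleton hv0]; omega)
  refine hno ⟨v, hv0, fun h => ?_⟩
  have := hinv h v hv
  rw [← hspan, Submodule.mem_span_singleton] at this
  obtain ⟨c, hc⟩ := this
  exact ⟨c, hc.symm⟩

theorem mem_span_range_mul (M : H →* M2 K) {a b : M2 K}
    (ha : a ∈ Submodule.span K (Set.range M)) (hb : b ∈ Submodule.span K (Set.range M)) :
    a * b ∈ Submodule.span K (Set.range M) := by
  refine Submodule.span_induction ?_ (by simp) (fun x y _ _ hx hy => by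
    rw [add_mul]; exact add_mem hx hy) (fun c x _ hx => by
    rw [smul_mul_assoc]; exact Submodule.smul_mem _ c hx) ha
  rintro _ ⟨g, rfl⟩
  refine Submodule.span_induction ?_ (by simp) (fun x y _ _ hx hy => by
    rw [mul_add]; exact add_mem hx hy) (fun c x _ hx => by
    rw [mul_smul_comm]; exact Submodule.smul_mem _ c hx) hb
  rintro _ ⟨g', rfl⟩
  exact Submodule.subset_span ⟨g * g', map_mul M g g'⟩

theorem exists_vecMulVec {N : M2 K} (h0 : N ≠ 0) (hdet : N.det = 0) :
    ∃ u φ : Fin 2 → K, u ≠ 0 ∧ φ ≠ 0 ∧ N = vecMulVec u φ := by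
  rw [Matrix.det_fin_two] at hdet
  by_cases hr : N 0 = 0
  · refine ⟨![0, 1], N 1, ?_, ?_, ?_⟩
    · intro h; simpa using congr_fun h 1
    · intro h; exact h0 (by ext i j; fin_cases i <;> simp [hr, h])
    · ext i j; fin_cases i <;> fin_cases j <;> simp [vecMulVec_apply, hr]
  · by_cases h00 : N 0 0 = 0
    · have h01 : N 0 1 ≠ 0 := fun h => hr (by ext j; fin_cases j <;> simp [h00, h])
      refine ⟨![1, N 1 1 / N 0 1], N 0, ?_, hr, ?_⟩
      · intro h; simpa using congr_fun h 0
      · ext i j
        fin_cases i <;> fin_cases j <;> simp [vecMulVec_apply, h00]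
        · rw [h00] at hdet
          have : N 0 1 * N 1 0 = 0 := by linear_combination -hdet
          exact (mul_eq_zero.mp this).resolve_left h01
        · field_simp
    · refine ⟨![1, N 1 0 / N 0 0], N 0, ?_, hr, ?_⟩
      · intro h; simpa using congr_fun h 0
      · ext i j
        fin_cases i <;> fin_cases j <;> simp [vecMulVec_apply]
        · field_simp
        · field_simp
          linear_combination hdet

/-- Burnside's theorem in dimension two. -/
theorem span_eq_top_of_not_hasCommonEigvec [IsAlgClosed K] (M : H →* M2 K)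
    (hM : ¬ HasCommonEigvec M) : Submodule.span K (Set.range M) = ⊤ := by
  set S := Submodule.span K (Set.range M) with hS
  obtain ⟨g, hg⟩ : ∃ g, ∀ c : K, M g ≠ c • 1 := by
    by_contra h
    push Not at h
    refine hM ⟨![1, 0], fun hh => by simpa using congr_fun hh 0, fun g => ?_⟩
    obtain ⟨c, hc⟩ := h g
    exact ⟨c, by rw [hc, Matrix.smul_mulVec, Matrix.one_mulVec]⟩
  obtain ⟨α, hα⟩ : ∃ α : K, (M g - α • 1).det = 0 := by
    obtain ⟨α, hα⟩ := IsAlgClosed.exists_root (M g).charpoly (by
      rw [Matrix.charpoly_degree_eq_dim]; norm_num)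
    refine ⟨α, ?_⟩
    have h1 : (Matrix.scalar (Fin 2) α - M g).det = 0 := by
      rw [← Matrix.eval_charpoly]; exact hα
    have h2 : M g - α • (1 : M2 K) = -(Matrix.scalar (Fin 2) α - M g) := by
      rw [neg_sub, Matrix.smul_one_eq_diagonal]; rfl
    rw [h2, Matrix.det_neg, h1, mul_zero]
  have hN : M g - α • 1 ∈ S := by
    refine sub_mem (Submodule.subset_span ⟨g, rfl⟩) (Submodule.smul_mem _ α ?_)
    exact Submodule.subset_span ⟨1, map_one M⟩
  obtain ⟨u, φ, hu, hφ, huφ⟩ := exists_vecMulVec (sub_ne_zero.mpr (hg α)) hα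
  rw [huφ] at hN
  have hgen : ∀ h, M h ∈ S := fun h => Submodule.subset_span ⟨h, rfl⟩
  -- the left factor is arbitrary
  have hU : ∀ a, vecMulVec a φ ∈ S := by
    let W : Submodule K (Fin 2 → K) :=
      { carrier := {a | vecMulVec a φ ∈ S}
        add_mem' := fun {a b} ha hb => by
          show vecMulVec (a + b) φ ∈ S
          rw [add_vecMulVec]; exact add_mem ha hb
        zero_mem' := by show vecMulVec 0 φ ∈ S; rw [zero_vecMulVec]; exact zero_mem _
        smul_mem' := fun c a ha => by
          show vecMulVec (c • a) φ ∈ S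
          rw [smul_vecMulVec]; exact Submodule.smul_mem _ c ha }
    have hW : W = ⊤ := eq_top_of_invariant (f := fun h => Matrix.toLin' (M h)) W
      (fun h => hu (by simpa [h] using (show u ∈ W from hN)))
      (fun h a ha => by
        show vecMulVec (Matrix.toLin' (M h) a) φ ∈ S
        rw [Matrix.toLin'_apply, ← Matrix.mul_vecMulVec]
        exact mem_span_range_mul M (hgen h) ha)
      (fun ⟨v, hv, h⟩ => hM ⟨v, hv, fun g => by simpa [Matrix.toLin'_apply] using h g⟩)
    exact fun a => show a ∈ W from hW ▸ Submodule.mem_top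
  -- the right factor is arbitrary
  have hV : ∀ a b, vecMulVec a b ∈ S := by
    intro a
    let W : Submodule K (Fin 2 → K) :=
      { carrier := {b | vecMulVec a b ∈ S}
        add_mem' := fun {x y} hx hy => by
          show vecMulVec a (x + y) ∈ S
          rw [vecMulVec_add]; exact add_mem hx hy
        zero_mem' := by show vecMulVec a 0 ∈ S; rw [vecMulVec_zero]; exact zero_mem _
        smul_mem' := fun c x hx => by
          show vecMulVec a (c • x) ∈ S
          rw [vecMulVec_smul]; exact Submodule.smul_mem _ c hx }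
    have hW : W = ⊤ := eq_top_of_invariant (f := fun h => Matrix.toLin' (M h).transpose) W
      (fun h => hφ (by simpa [h] using (show φ ∈ W from hU a)))
      (fun h b hb => by
        show vecMulVec a (Matrix.toLin' (M h).transpose b) ∈ S
        rw [Matrix.toLin'_apply, Matrix.mulVec_transpose, ← Matrix.vecMulVec_mul]
        exact mem_span_range_mul M hb (hgen h))
      (fun ⟨v, hv, h⟩ => hM ⟨![-v 1, v 0], fun hh => hv (by
          ext i
          have e0 := congr_fun hh 0
          have e1 := congr_fun hh 1
          simp at e0 e1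
          fin_cases i <;> simp [e0, e1]), fun g => by
        obtain ⟨c, hc⟩ := h g
        rw [Matrix.toLin'_apply, Matrix.mulVec_transpose] at hc
        have c0 := congr_fun hc 0
        have c1 := congr_fun hc 1
        simp [Matrix.vecMul, dotProduct, Fin.sum_univ_two] at c0 c1
        refine ⟨(M g) 0 0 + (M g) 1 1 - c, ?_⟩
        ext i
        fin_cases i <;> simp [Matrix.mulVec, dotProduct, Fin.sum_univ_two]
        · linear_combination c1
        · linear_combination -c0⟩)
    exact fun b => show b ∈ W from hW ▸ Submodule.mem_top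
  rw [eq_top_iff]
  intro X _
  rw [Matrix.matrix_eq_sum_single X]
  refine Submodule.sum_mem _ fun i _ => Submodule.sum_mem _ fun j _ => ?_
  have : Matrix.single i j (X i j) = X i j • vecMulVec (Pi.single i 1) (Pi.single j 1) := by
    rw [← Matrix.single_eq_single_vecMulVec_single, Matrix.smul_single, smul_eq_mul, mul_one]
  rw [this]
  exact Submodule.smul_mem _ _ (hV _ _)

/-- An absolutely irreducible representation spans the matrix algebra. -/
theorem span_matrix_eq_top {k : Type} [Field k] (ρbar : ResidualGaloisRep k)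
    (habs : ρbar.IsAbsolutelyIrreducible) (b : Basis (Fin 2) k ρbar.V) :
    Submodule.span k (Set.range fun σ => LinearMap.toMatrixAlgEquiv b (ρbar.ρ σ)) = ⊤ := by
  let L := AlgebraicClosure k
  let r : Gal →* M2 k := (LinearMap.toMatrixAlgEquiv b).toMonoidHom.comp ρbar.ρ
  let rL : Gal →* M2 L := mapM (algebraMap k L) r
  have hspan : Submodule.span L (Set.range rL) = ⊤ := by
    refine span_eq_top_of_not_hasCommonEigvec rL ?_
    rintro ⟨v, hv, hev⟩
    let bL : Basis (Fin 2) L (ρbar.baseChange L).V := b.baseChange L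
    let w : (ρbar.baseChange L).V := bL.equivFun.symm v
    have hmat : ∀ σ, LinearMap.toMatrix bL bL ((ρbar.baseChange L).ρ σ) = rL σ := fun σ => by
      ext i j
      show LinearMap.toMatrix bL bL ((ρbar.ρ σ).baseChange L) i j = _
      rw [LinearMap.toMatrix_apply, Basis.baseChange_apply, LinearMap.baseChange_tmul,
        Basis.baseChange_repr_tmul, mapM_apply, Algebra.smul_def, mul_one]
      show algebraMap k L _ = algebraMap k L (LinearMap.toMatrixAlgEquiv b (ρbar.ρ σ) i j)
      rw [LinearMap.toMatrixAlgEquiv_apply]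
    have hw0 : w ≠ 0 := fun h => hv (by
      rw [← bL.equivFun.apply_symm_apply v]
      exact (congr_arg bL.equivFun h).trans (map_zero _))
    have hinv : ∀ σ : Gal, ∀ x ∈ L ∙ w, (ρbar.baseChange L).ρ σ x ∈ L ∙ w := by
      intro σ x hx
      obtain ⟨a, rfl⟩ := Submodule.mem_span_singleton.mp hx
      rw [map_smul]
      refine Submodule.smul_mem _ a (Submodule.mem_span_singleton.mpr ?_)
      obtain ⟨c, hc⟩ := hev σ
      refine ⟨c, ?_⟩
      have h1 : rL σ *ᵥ bL.repr w = bL.repr ((ρbar.baseChange L).ρ σ w) := by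
        rw [← hmat σ]; exact LinearMap.toMatrix_mulVec_repr bL bL _ w
      have h2 : (bL.repr w : Fin 2 → L) = v := by
        rw [← Basis.equivFun_apply]; exact bL.equivFun.apply_symm_apply v
      rw [h2, hc] at h1
      apply bL.repr.injective
      ext i
      rw [map_smul, Finsupp.smul_apply, ← congr_fun h1 i, h2]
      rfl
    rcases habs (L ∙ w) hinv with h | h
    · exact hw0 (Submodule.span_singleton_eq_bot.mp h)
    · have := finrank_span_singleton (K := L) hw0
      rw [h, finrank_top, (ρbar.baseChange L).finrank_eq] at this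
      omega
  by_contra hne
  obtain ⟨f, hf0, hf⟩ :=
    Submodule.exists_dual_map_eq_bot_of_lt_top (lt_top_iff_ne_top.mpr hne) inferInstance
  have hfv : ∀ σ, f (r σ) = 0 := fun σ => by
    have : f (r σ) ∈ Submodule.map f
        (Submodule.span k (Set.range fun σ => LinearMap.toMatrixAlgEquiv b (ρbar.ρ σ))) :=
      Submodule.mem_map_of_mem (Submodule.subset_span ⟨σ, rfl⟩)
    rwa [hf, Submodule.mem_bot] at this
  let F : M2 L →ₗ[L] L :=
    ∑ i, ∑ j, algebraMap k L (f (Matrix.single i j 1)) •
      ((LinearMap.proj j : (Fin 2 → L) →ₗ[L] L).comp (LinearMap.proj i))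
  have hF : ∀ X : M2 k, F (X.map (algebraMap k L)) = algebraMap k L (f X) := by
    intro X
    conv_rhs => rw [Matrix.matrix_eq_sum_single X]
    simp only [map_sum, F, LinearMap.coe_sum, Finset.sum_apply]
    refine Finset.sum_congr rfl fun i _ => Finset.sum_congr rfl fun j _ => ?_
    have : Matrix.single i j (X i j) = X i j • Matrix.single i j (1 : k) := by
      rw [Matrix.smul_single, smul_eq_mul, mul_one]
    rw [this, map_smul, smul_eq_mul, map_mul]
    simp only [LinearMap.smul_apply, smul_eq_mul]
    exact mul_comm _ _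
  have hFtop : (⊤ : Submodule L (M2 L)) ≤ LinearMap.ker F := by
    rw [← hspan, Submodule.span_le]
    rintro _ ⟨σ, rfl⟩
    show F ((r σ).map (algebraMap k L)) = 0
    rw [hF, hfv, map_zero]
  apply hf0
  refine LinearMap.ext fun X => (algebraMap k L).injective ?_
  rw [← hF, LinearMap.zero_apply, map_zero]
  exact LinearMap.mem_ker.mp (hFtop Submodule.mem_top)

end Fermat.Agent.Deform
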