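import Fermat.Agent.Deform.Level

/-!
# Bounding coefficient algebras by the dual numbers

`card_le_of_card_algHom` bounds the size of a coefficient algebra of finite level by the number of
its maps to the dual numbers.
-/

set_option autoImplicit false
set_option linter.style.haveILetI false

noncomputable section

namespace Fermat.Agent.Deform

open IsLocalRing Module

variable (𝒪 : Type) [CommRing 𝒪] [IsLocalRing 𝒪]

/-- The `𝒪`-algebra structure of the dual numbers over the residue field, as in the Prelude. -/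
abbrev dualAlgebra : Algebra 𝒪 (DualNumber (ResidueField 𝒪)) :=
  ((algebraMap (ResidueField 𝒪) (DualNumber (ResidueField 𝒪))).comp
    (algebraMap 𝒪 (ResidueField 𝒪))).toAlgebra

theorem isLevel_dual [Finite (ResidueField 𝒪)] :
    letI := dualAlgebra 𝒪
    IsLevel 𝒪 1 (DualNumber (ResidueField 𝒪)) := by
  letI := dualAlgebra 𝒪
  have hmem : ∀ x : DualNumber (ResidueField 𝒪),
      x ∈ maximalIdeal (DualNumber (ResidueField 𝒪)) ↔ x.fst = 0 := fun x => by
    rw [IsLocalRing.mem_maximalIdeal, mem_nonunits_iff, TrivSqZeroExt.isUnit_iff_isUnit_fst,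
      isUnit_iff_ne_zero, not_not]
  refine ⟨inferInstanceAs (Finite (ResidueField 𝒪 × ResidueField 𝒪)), ⟨⟨fun o ho => ?_⟩,
    fun z => ?_⟩, ?_⟩
  · rw [TrivSqZeroExt.isUnit_iff_isUnit_fst, isUnit_iff_ne_zero] at ho
    by_contra hno
    exact ho (by
      show residue 𝒪 o = 0
      exact (residue_eq_zero_iff o).mpr hno)
  · obtain ⟨x, rfl⟩ := residue_surjective z
    obtain ⟨o, ho⟩ := residue_surjective (R := 𝒪) x.fst
    refine ⟨o, ?_⟩
    show residue _ (algebraMap 𝒪 (DualNumber (ResidueField 𝒪)) o) = residue _ x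
    rw [← sub_eq_zero, ← map_sub, residue_eq_zero_iff, hmem, TrivSqZeroExt.fst_sub]
    show residue 𝒪 o - x.fst = 0
    rw [ho, sub_self]
  · refine le_bot_iff.mp ?_
    rw [pow_two, Ideal.mul_le]
    intro a ha b hb
    rw [Ideal.mem_bot]
    rw [hmem] at ha hb
    refine TrivSqZeroExt.ext ?_ ?_
    · simp [ha]
    · simp [ha, hb]

variable {𝒪}
variable {A : Type} [CommRing A] [IsLocalRing A] [Algebra 𝒪 A] {n : ℕ}

/-- The ideal `m² + m_𝒪 A`. -/
def tangentIdeal (𝒪 : Type) [CommRing 𝒪] [IsLocalRing 𝒪] (A : Type) [CommRing A] [IsLocalRing A]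
    [Algebra 𝒪 A] : Ideal A :=
  maximalIdeal A * maximalIdeal A ⊔ (maximalIdeal 𝒪).map (algebraMap 𝒪 A)

theorem tangentIdeal_le (hA : IsResAlg 𝒪 A) : tangentIdeal 𝒪 A ≤ maximalIdeal A :=
  sup_le Ideal.mul_le_left (Ideal.map_le_iff_le_comap.mpr fun o ho =>
    haveI := hA.isLocalHom
    map_nonunit (algebraMap 𝒪 A) o ho)

set_option maxHeartbeats 800000 in
theorem exists_generators [Finite (ResidueField 𝒪)] (hA : IsLevel 𝒪 n A) (N : ℕ)
    (hfin : letI := dualAlgebra 𝒪; Finite (A →ₐ[𝒪] DualNumber (ResidueField 𝒪)))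
    (hN : letI := dualAlgebra 𝒪; Nat.card (A →ₐ[𝒪] DualNumber (ResidueField 𝒪)) ≤ N) :
    ∃ s : Fin N → A, (∀ i, s i ∈ maximalIdeal A) ∧
      maximalIdeal A ≤
        Ideal.span (Set.range s) ⊔ (maximalIdeal 𝒪).map (algebraMap 𝒪 A) := by
  classical
  letI := dualAlgebra 𝒪
  haveI := hA.finite
  let ε := augment hA.resAlg
  let I := tangentIdeal 𝒪 A
  letI algQ : Algebra (ResidueField 𝒪) (A ⧸ I) :=
    (Ideal.Quotient.lift (maximalIdeal 𝒪) ((Ideal.Quotient.mk I).comp (algebraMap 𝒪 A))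
      (fun o ho => Ideal.Quotient.eq_zero_iff_mem.mpr
        (Ideal.mem_sup_right (Ideal.mem_map_of_mem _ ho)))).toAlgebra
  have halg : ∀ o : 𝒪, algebraMap (ResidueField 𝒪) (A ⧸ I) (residue 𝒪 o) =
      Ideal.Quotient.mk I (algebraMap 𝒪 A o) := fun o => rfl
  let ψ : (A ⧸ I) →+* ResidueField 𝒪 := Ideal.Quotient.lift I (ε : A →+* ResidueField 𝒪)
    fun a ha => (augment_eq_zero_iff hA.resAlg a).mpr (tangentIdeal_le hA.resAlg ha)
  have hψmk : ∀ a, ψ (Ideal.Quotient.mk I a) = ε a := fun a => rfl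
  have hψ : ∀ c, ψ (algebraMap (ResidueField 𝒪) (A ⧸ I) c) = c := by
    intro c
    obtain ⟨o, rfl⟩ := residue_surjective c
    rw [halg, hψmk, AlgHom.commutes]
    rfl
  let ψl : (A ⧸ I) →ₗ[ResidueField 𝒪] ResidueField 𝒪 :=
    { toFun := ψ
      map_add' := map_add ψ
      map_smul' := fun c x => by
        rw [Algebra.smul_def, map_mul, hψ]; rfl }
  let Wm : Submodule (ResidueField 𝒪) (A ⧸ I) := LinearMap.ker ψl
  haveI : Finite (A ⧸ I) := Finite.of_surjective _ Ideal.Quotient.mk_surjective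
  let w : A → Wm := fun a =>
    ⟨Ideal.Quotient.mk I a - algebraMap (ResidueField 𝒪) (A ⧸ I) (ε a), by
      show ψ _ = 0
      rw [map_sub, hψmk, hψ, sub_self]⟩
  have hwmul : ∀ a b, w (a * b) = ε a • w b + ε b • w a := by
    intro a b
    apply Subtype.ext
    show Ideal.Quotient.mk I (a * b) - algebraMap (ResidueField 𝒪) (A ⧸ I) (ε (a * b)) =
      ε a • ((w b : A ⧸ I)) + ε b • ((w a : A ⧸ I))
    have hz : (w a : A ⧸ I) * (w b : A ⧸ I) = 0 := by
      obtain ⟨o, ho⟩ := residue_surjective (R := 𝒪) (ε a)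
      obtain ⟨o', ho'⟩ := residue_surjective (R := 𝒪) (ε b)
      show (Ideal.Quotient.mk I a - _) * (Ideal.Quotient.mk I b - _) = 0
      rw [← ho, ← ho', halg, halg, ← map_sub, ← map_sub, ← map_mul, Ideal.Quotient.eq_zero_iff_mem]
      refine Ideal.mem_sup_left (Ideal.mul_mem_mul ?_ ?_)
      · rw [← augment_eq_zero_iff hA.resAlg, map_sub, AlgHom.commutes, ResidueField.algebraMap_eq,
          ho, sub_self]
      · rw [← augment_eq_zero_iff hA.resAlg, map_sub, AlgHom.commutes, ResidueField.algebraMap_eq,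
          ho', sub_self]
    simp only [w] at hz ⊢
    rw [Algebra.smul_def, Algebra.smul_def, map_mul, map_mul, map_mul]
    linear_combination hz
  have hwalg : ∀ o : 𝒪, w (algebraMap 𝒪 A o) = 0 := by
    intro o
    apply Subtype.ext
    show Ideal.Quotient.mk I (algebraMap 𝒪 A o) - _ = 0
    rw [AlgHom.commutes, ResidueField.algebraMap_eq, halg, sub_self]
  let Φ : Module.Dual (ResidueField 𝒪) Wm → (A →ₐ[𝒪] DualNumber (ResidueField 𝒪)) := fun l =>
    { toFun := fun a => TrivSqZeroExt.inl (ε a) + TrivSqZeroExt.inr (l (w a))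
      map_one' := by
        have h1 : w 1 = 0 := by simpa using hwalg 1
        simp [h1]
      map_mul' := fun a b => by
        refine TrivSqZeroExt.ext ?_ ?_
        · simp
        · simp only [hwmul, map_add, map_smul, smul_eq_mul, TrivSqZeroExt.snd_mul,
            TrivSqZeroExt.fst_add, TrivSqZeroExt.snd_add, TrivSqZeroExt.fst_inl,
            TrivSqZeroExt.snd_inl, TrivSqZeroExt.fst_inr, TrivSqZeroExt.snd_inr, zero_add, add_zero,
            MulOpposite.smul_eq_mul_unop, MulOpposite.unop_op]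
          ring
      map_zero' := by
        have h1 : w 0 = 0 := by simpa using hwalg 0
        simp [h1]
      map_add' := fun a b => by
        have h1 : w (a + b) = w a + w b := by
          apply Subtype.ext
          simp only [w, Submodule.coe_add, map_add]
          abel
        refine TrivSqZeroExt.ext ?_ ?_ <;> simp [h1]
      commutes' := fun o => by
        refine TrivSqZeroExt.ext ?_ ?_
        · simp [AlgHom.commutes, hwalg]
          rfl
        · simp [hwalg]
          rfl }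
  have hΦ : Function.Injective Φ := by
    intro l l' h
    refine LinearMap.ext fun x => ?_
    obtain ⟨a, ha⟩ := Ideal.Quotient.mk_surjective (x : A ⧸ I)
    have hx : w a = x := by
      apply Subtype.ext
      show Ideal.Quotient.mk I a - algebraMap (ResidueField 𝒪) (A ⧸ I) (ε a) = x
      have h2 : ψ (x : A ⧸ I) = 0 := x.2
      rw [← ha, hψmk] at h2
      rw [h2, map_zero, sub_zero, ha]
    have h3 : (Φ l a).snd = (Φ l' a).snd := by rw [h]
    simpa [Φ, hx] using h3
  haveI := hfin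
  haveI : Finite (Module.Dual (ResidueField 𝒪) Wm) := Finite.of_injective Φ hΦ
  have hcard : Nat.card Wm ≤ N := by
    have e := (Module.finBasis (ResidueField 𝒪) Wm).toDualEquiv
    rw [Nat.card_congr e.toEquiv]
    exact (Nat.card_le_card_of_injective Φ hΦ).trans hN
  let e := Finite.equivFin Wm
  choose lift hlift using fun x : Wm => Ideal.Quotient.mk_surjective (x : A ⧸ I)
  have hliftm : ∀ x : Wm, lift x ∈ maximalIdeal A := fun x => by
    rw [← augment_eq_zero_iff hA.resAlg]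
    show ε (lift x) = 0
    rw [← hψmk, hlift]
    exact x.2
  let s : Fin N → A := fun i =>
    if h : (i : ℕ) < Nat.card Wm then lift (e.symm ⟨i, h⟩) else 0
  have hs : ∀ i, s i ∈ maximalIdeal A := fun i => by
    simp only [s]; split
    · exact hliftm _
    · exact zero_mem _
  refine ⟨s, hs, ?_⟩
  refine Submodule.le_of_le_smul_of_le_jacobson_bot (IsNoetherian.noetherian (maximalIdeal A))
    (maximalIdeal_le_jacobson ⊥) fun a ha => ?_
  let x : Wm := ⟨Ideal.Quotient.mk I a, LinearMap.mem_ker.mpr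
    ((hψmk a).trans ((augment_eq_zero_iff hA.resAlg a).mpr ha) : ψl (Ideal.Quotient.mk I a) = 0)⟩
  let i : Fin N := ⟨e x, (e x).2.trans_le hcard⟩
  have hsi : s i = lift x := by
    simp only [s, i, (e x).2, dite_true, Fin.eta, Equiv.symm_apply_apply]
  have hd : a - s i ∈ I := by
    rw [← Ideal.Quotient.eq, hsi, hlift]
  have h1 : s i ∈ Ideal.span (Set.range s) ⊔ (maximalIdeal 𝒪).map (algebraMap 𝒪 A) :=
    Ideal.mem_sup_left (Ideal.subset_span ⟨i, rfl⟩)
  have h2 : I ≤ (Ideal.span (Set.range s) ⊔ (maximalIdeal 𝒪).map (algebraMap 𝒪 A)) ⊔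
      maximalIdeal A • maximalIdeal A := by
    refine sup_le ?_ (le_sup_right.trans le_sup_left)
    rw [smul_eq_mul]; exact le_sup_right
  have h3 := add_mem (h2 hd) (Submodule.mem_sup_left h1)
  rwa [sub_add_cancel] at h3

/-- The ideal `(m_𝒪, X)` of a polynomial ring. -/
def polyIdeal (𝒪 : Type) [CommRing 𝒪] [IsLocalRing 𝒪] (N : ℕ) : Ideal (MvPolynomial (Fin N) 𝒪) :=
  (maximalIdeal 𝒪).map MvPolynomial.C ⊔ MvPolynomial.idealOfVars (Fin N) 𝒪

theorem finite_quotient_polyIdeal_pow [IsNoetherianRing 𝒪] [Finite (ResidueField 𝒪)] (N n : ℕ) :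
    Finite (MvPolynomial (Fin N) 𝒪 ⧸ polyIdeal 𝒪 N ^ n) := by
  haveI : Finite (MvPolynomial (Fin N) 𝒪 ⧸ polyIdeal 𝒪 N) := by
    let f : ResidueField 𝒪 →+* MvPolynomial (Fin N) 𝒪 ⧸ polyIdeal 𝒪 N :=
      Ideal.Quotient.lift (maximalIdeal 𝒪)
        ((Ideal.Quotient.mk (polyIdeal 𝒪 N)).comp MvPolynomial.C)
        (fun o ho => Ideal.Quotient.eq_zero_iff_mem.mpr
          (Ideal.mem_sup_left (Ideal.mem_map_of_mem _ ho)))
    refine Finite.of_surjective f fun y => ?_
    obtain ⟨p, rfl⟩ := Ideal.Quotient.mk_surjective y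
    induction p using MvPolynomial.induction_on with
    | C o => exact ⟨residue 𝒪 o, rfl⟩
    | add p q hp hq =>
      obtain ⟨a, ha⟩ := hp
      obtain ⟨b, hb⟩ := hq
      exact ⟨a + b, by rw [map_add, map_add, ha, hb]⟩
    | mul_X p i _ =>
      refine ⟨0, ?_⟩
      rw [map_zero, eq_comm, Ideal.Quotient.eq_zero_iff_mem]
      exact Ideal.mul_mem_left _ _ (Ideal.mem_sup_right (Ideal.subset_span ⟨i, rfl⟩))
  exact Ideal.finite_quotient_pow (IsNoetherian.noetherian _) _

theorem card_le_of_card_algHom [IsNoetherianRing 𝒪] [Finite (ResidueField 𝒪)]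
    (hA : IsLevel 𝒪 n A) (N : ℕ)
    (hfin : letI := dualAlgebra 𝒪; Finite (A →ₐ[𝒪] DualNumber (ResidueField 𝒪)))
    (hN : letI := dualAlgebra 𝒪; Nat.card (A →ₐ[𝒪] DualNumber (ResidueField 𝒪)) ≤ N) :
    Nat.card A ≤ Nat.card (MvPolynomial (Fin N) 𝒪 ⧸ polyIdeal 𝒪 N ^ (n + 1)) := by
  obtain ⟨s, hs, hgen⟩ := exists_generators hA N hfin hN
  let φ : MvPolynomial (Fin N) 𝒪 →ₐ[𝒪] A := MvPolynomial.aeval s
  have hM : (polyIdeal 𝒪 N).map (φ : _ →+* A) = maximalIdeal A := by
    rw [polyIdeal, Ideal.map_sup, Ideal.map_map, MvPolynomial.idealOfVars, Ideal.map_span,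
      ← Set.range_comp]
    have hC : (φ : MvPolynomial (Fin N) 𝒪 →+* A).comp MvPolynomial.C = algebraMap 𝒪 A :=
      RingHom.ext fun o => MvPolynomial.aeval_C s o
    have hX : (⇑(φ : MvPolynomial (Fin N) 𝒪 →+* A) ∘ MvPolynomial.X) = s :=
      funext fun i => MvPolynomial.aeval_X s i
    rw [hC, hX]
    refine le_antisymm (sup_le (le_sup_right.trans (tangentIdeal_le hA.resAlg)) ?_)
      (hgen.trans (le_of_eq (sup_comm _ _)))
    rw [Ideal.span_le]
    rintro _ ⟨i, rfl⟩
    exact hs i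
  have hsurj : ∀ j, ∀ a : A, ∃ p, a - φ p ∈ maximalIdeal A ^ j := by
    intro j
    induction j with
    | zero => exact fun a => ⟨0, by simp⟩
    | succ j ih =>
      intro a
      obtain ⟨p, hp⟩ := ih a
      suffices H : ∀ y ∈ (polyIdeal 𝒪 N ^ j).map (φ : _ →+* A),
          ∃ q, y - φ q ∈ maximalIdeal A ^ (j + 1) by
        obtain ⟨q, hq⟩ := H _ (by rw [Ideal.map_pow, hM]; exact hp)
        exact ⟨p + q, by rw [map_add, ← sub_sub]; exact hq⟩
      intro y hy
      refine Submodule.span_induction (p := fun y _ => ∃ q, y - φ q ∈ maximalIdeal A ^ (j + 1))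
        ?_ ⟨0, by simp⟩ ?_ ?_ hy
      · rintro _ ⟨q, _, rfl⟩
        exact ⟨q, by simp⟩
      · rintro x z _ _ ⟨q, hq⟩ ⟨q', hq'⟩
        exact ⟨q + q', by rw [map_add, add_sub_add_comm]; exact add_mem hq hq'⟩
      · rintro c x hx ⟨q, hq⟩
        obtain ⟨o, ho⟩ := exists_sub_mem hA.resAlg c
        refine ⟨MvPolynomial.C o * q, ?_⟩
        have hxm : x ∈ maximalIdeal A ^ j := by
          rw [← hM, ← Ideal.map_pow]; exact hx
        have hdecomp : c • x - φ (MvPolynomial.C o * q) =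
            algebraMap 𝒪 A o * (x - φ q) + (c - algebraMap 𝒪 A o) * x := by
          rw [map_mul, smul_eq_mul]
          show c * x - MvPolynomial.aeval s (MvPolynomial.C o) * φ q = _
          rw [MvPolynomial.aeval_C]
          ring
        rw [hdecomp]
        refine add_mem (Ideal.mul_mem_left _ _ hq) ?_
        rw [pow_succ']
        exact Ideal.mul_mem_mul ho hxm
  haveI := finite_quotient_polyIdeal_pow (𝒪 := 𝒪) N (n + 1)
  let F : MvPolynomial (Fin N) 𝒪 ⧸ polyIdeal 𝒪 N ^ (n + 1) →+* A :=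
    Ideal.Quotient.lift _ (φ : _ →+* A) fun p hp => by
      have h1 := Ideal.mem_map_of_mem (φ : _ →+* A) hp
      rwa [Ideal.map_pow, hM, hA.pow_eq_bot, Ideal.mem_bot] at h1
  refine Nat.card_le_card_of_surjective F fun a => ?_
  obtain ⟨p, hp⟩ := hsurj (n + 1) a
  refine ⟨Ideal.Quotient.mk _ p, ?_⟩
  rw [hA.pow_eq_bot, Ideal.mem_bot, sub_eq_zero] at hp
  exact hp.symm

end Fermat.Agent.Deform
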