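import Fermat.Agent.Deform.Matrix
import Fermat.Prelude.Def_GaloisRep_DeformationCondition

/-!
# Coefficient algebras and normalised lifts

Local algebras with residue field that of `𝒪`, and lifts of a residual matrix representation.
Every lift to a complete algebra is conjugate to a normalised one (`exists_normal`), and conjugate
normalised lifts are equal (`normal_unique`).
-/

set_option autoImplicit false
set_option linter.style.haveILetI false

noncomputable section

namespace Fermat.Agent.Deform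

open IsLocalRing Module

/-- A local `𝒪`-algebra with residue field equal to that of `𝒪`. -/
structure IsResAlg (𝒪 : Type) [CommRing 𝒪] [IsLocalRing 𝒪] (A : Type) [CommRing A]
    [IsLocalRing A] [Algebra 𝒪 A] : Prop where
  isLocalHom : IsLocalHom (algebraMap 𝒪 A)
  residue_surjective : Function.Surjective (IsLocalRing.residue A ∘ algebraMap 𝒪 A)

variable {𝒪 : Type} [CommRing 𝒪] [IsLocalRing 𝒪]
variable {A B : Type} [CommRing A] [IsLocalRing A] [Algebra 𝒪 A]
variable [CommRing B] [IsLocalRing B] [Algebra 𝒪 B]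

theorem isResAlg_of_test (h : GaloisRep.IsArtinianTestAlgebra 𝒪 A) : IsResAlg 𝒪 A :=
  ⟨h.isLocalHom, h.residue_surjective⟩

theorem IsResAlg.map_bijective (h : IsResAlg 𝒪 A) :
    haveI := h.isLocalHom
    Function.Bijective (ResidueField.map (algebraMap 𝒪 A)) := by
  haveI := h.isLocalHom
  refine ⟨(ResidueField.map (algebraMap 𝒪 A)).injective, fun x => ?_⟩
  obtain ⟨o, ho⟩ := h.residue_surjective x
  exact ⟨residue 𝒪 o, by rw [ResidueField.map_residue]; exact ho⟩

/-- The augmentation of a coefficient algebra to the residue field of `𝒪`. -/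
def augment (h : IsResAlg 𝒪 A) : A →ₐ[𝒪] ResidueField 𝒪 :=
  haveI := h.isLocalHom
  { toRingHom := ((RingEquiv.ofBijective _ h.map_bijective).symm.toRingHom).comp (residue A)
    commutes' := fun o => by
      show (RingEquiv.ofBijective _ h.map_bijective).symm (residue A (algebraMap 𝒪 A o)) = _
      rw [RingEquiv.symm_apply_eq]
      rfl }

theorem map_augment (h : IsResAlg 𝒪 A) (a : A) :
    haveI := h.isLocalHom
    ResidueField.map (algebraMap 𝒪 A) (augment h a) = residue A a := by
  haveI := h.isLocalHom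
  exact (RingEquiv.ofBijective _ h.map_bijective).apply_symm_apply (residue A a)

theorem augment_eq_zero_iff (h : IsResAlg 𝒪 A) (a : A) :
    augment h a = 0 ↔ a ∈ maximalIdeal A := by
  haveI := h.isLocalHom
  rw [← residue_eq_zero_iff a, ← map_augment h a]
  exact (map_eq_zero_iff _ (ResidueField.map (algebraMap 𝒪 A)).injective).symm

theorem exists_sub_mem (h : IsResAlg 𝒪 A) (a : A) :
    ∃ o : 𝒪, a - algebraMap 𝒪 A o ∈ maximalIdeal A := by
  obtain ⟨o, ho⟩ := h.residue_surjective (residue A a)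
  refine ⟨o, (residue_eq_zero_iff _).mp ?_⟩
  rw [map_sub, sub_eq_zero]
  exact ho.symm

/-- An algebra map to the residue field of `𝒪` killing the maximal ideal is the augmentation. -/
theorem eq_augment (h : IsResAlg 𝒪 A) (ψ : A →ₐ[𝒪] ResidueField 𝒪)
    (hψ : ∀ a ∈ maximalIdeal A, ψ a = 0) : ψ = augment h := by
  refine AlgHom.ext fun a => ?_
  obtain ⟨o, ho⟩ := exists_sub_mem h a
  have h1 := hψ _ ho
  have h2 := (augment_eq_zero_iff h _).mpr ho
  rw [map_sub, AlgHom.commutes, sub_eq_zero] at h1 h2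
  rw [h1, h2]

theorem augment_comp (hA : IsResAlg 𝒪 A) (hB : IsResAlg 𝒪 B) (φ : A →ₐ[𝒪] B)
    (hφ : IsLocalHom (φ : A →+* B)) (a : A) : augment hB (φ a) = augment hA a := by
  have := eq_augment hA ((augment hB).comp φ) fun x hx =>
    (augment_eq_zero_iff hB _).mpr (haveI := hφ; map_nonunit (φ : A →+* B) x hx)
  exact DFunLike.congr_fun this a

theorem isResAlg_residueField : IsResAlg 𝒪 (ResidueField 𝒪) where
  isLocalHom := IsLocalHom.of_surjective _ residue_surjective
  residue_surjective := residue_surjective.comp residue_surjective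

/-- Residual matrices and the two elements used for normalisation. -/
structure Rigid (𝒪 : Type) [CommRing 𝒪] [IsLocalRing 𝒪] where
  /-- The residual matrix representation. -/
  rb : Gal →* M2 (ResidueField 𝒪)
  /-- Coefficients of a combination with residual value `E₀₀`. -/
  cX : Gal →₀ 𝒪
  /-- Coefficients of a combination with residual value `E₁₀`. -/
  cY : Gal →₀ 𝒪
  hX : (cX.sum fun σ o => o • rb σ) = Matrix.single 0 0 1
  hY : (cY.sum fun σ o => o • rb σ) = Matrix.single 1 0 1

/-- Evaluate a formal combination of Galois elements. -/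
def evalC (c : Gal →₀ 𝒪) {R : Type} [CommRing R] [Algebra 𝒪 R] (r : Gal →* M2 R) : M2 R :=
  c.sum fun σ o => o • r σ

omit [IsLocalRing 𝒪] in
theorem evalC_apply (c : Gal →₀ 𝒪) {R : Type} [CommRing R] [Algebra 𝒪 R] (r : Gal →* M2 R)
    (i j : Fin 2) : evalC c r i j = c.sum fun σ o => o • r σ i j := by
  simp only [evalC, Finsupp.sum, Matrix.sum_apply, Matrix.smul_apply]

omit [IsLocalRing 𝒪] in
theorem evalC_map (c : Gal →₀ 𝒪) {R S : Type} [CommRing R] [Algebra 𝒪 R] [CommRing S]
    [Algebra 𝒪 S] (φ : R →ₐ[𝒪] S) (r : Gal →* M2 R) (i j : Fin 2) :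
    evalC c (mapM (φ : R →+* S) r) i j = φ (evalC c r i j) := by
  simp only [evalC_apply, Finsupp.sum, map_sum, map_smul]
  rfl

omit [IsLocalRing 𝒪] in
theorem evalC_mul_comm (c : Gal →₀ 𝒪) {R : Type} [CommRing R] [Algebra 𝒪 R]
    {r r' : Gal →* M2 R} {P : M2 R} (h : ∀ σ, P * r σ = r' σ * P) :
    P * evalC c r = evalC c r' * P := by
  simp only [evalC, Finsupp.sum, Finset.mul_sum, Finset.sum_mul]
  exact Finset.sum_congr rfl fun σ _ => by rw [mul_smul_comm, smul_mul_assoc, h]

variable (W : Rigid 𝒪)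

/-- `r` lifts the residual representation. -/
def Lifts (h : IsResAlg 𝒪 A) (r : Gal →* M2 A) : Prop :=
  ∀ σ i j, augment h (r σ i j) = W.rb σ i j

/-- The normalisation condition. -/
def IsNormal {R : Type} [CommRing R] [Algebra 𝒪 R] (r : Gal →* M2 R) : Prop :=
  evalC W.cX r 0 1 = 0 ∧ evalC W.cX r 1 0 = 0 ∧ evalC W.cY r 1 0 = 1

variable {W}

theorem IsNormal.map {R S : Type} [CommRing R] [Algebra 𝒪 R] [CommRing S] [Algebra 𝒪 S]
    (φ : R →ₐ[𝒪] S) {r : Gal →* M2 R} (hr : IsNormal W r) :
    IsNormal W (mapM (φ : R →+* S) r) := by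
  obtain ⟨h1, h2, h3⟩ := hr
  refine ⟨?_, ?_, ?_⟩ <;> rw [evalC_map] <;> simp [h1, h2, h3]

theorem IsNormal.of_injective {R S : Type} [CommRing R] [Algebra 𝒪 R] [CommRing S] [Algebra 𝒪 S]
    (φ : R →ₐ[𝒪] S) (hφ : Function.Injective φ) {r : Gal →* M2 R}
    (hr : IsNormal W (mapM (φ : R →+* S) r)) : IsNormal W r := by
  obtain ⟨h1, h2, h3⟩ := hr
  rw [evalC_map] at h1 h2 h3
  exact ⟨hφ (h1.trans (map_zero φ).symm), hφ (h2.trans (map_zero φ).symm),
    hφ (h3.trans (map_one φ).symm)⟩

theorem Lifts.map {hA : IsResAlg 𝒪 A} {r : Gal →* M2 A} (hr : Lifts W hA r)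
    (hB : IsResAlg 𝒪 B) (φ : A →ₐ[𝒪] B) (hφ : IsLocalHom (φ : A →+* B)) :
    Lifts W hB (mapM (φ : A →+* B) r) := fun σ i j => by
  rw [mapM_apply, RingHom.coe_coe, augment_comp hA hB φ hφ]; exact hr σ i j

theorem Lifts.of_map {hA : IsResAlg 𝒪 A} {r : Gal →* M2 A} {hB : IsResAlg 𝒪 B}
    (φ : A →ₐ[𝒪] B) (hφ : IsLocalHom (φ : A →+* B))
    (hr : Lifts W hB (mapM (φ : A →+* B) r)) : Lifts W hA r := fun σ i j => by
  have := hr σ i j
  rwa [mapM_apply, RingHom.coe_coe, augment_comp hA hB φ hφ] at this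

theorem augment_evalC {h : IsResAlg 𝒪 A} {r : Gal →* M2 A} (hr : Lifts W h r) (c : Gal →₀ 𝒪)
    (i j : Fin 2) : augment h (evalC c r i j) = evalC c W.rb i j := by
  have e : mapM (augment h : A →+* ResidueField 𝒪) r = W.rb := by
    ext σ i j; exact hr σ i j
  rw [← evalC_map, e]

theorem augment_X {h : IsResAlg 𝒪 A} {r : Gal →* M2 A} (hr : Lifts W h r) (i j : Fin 2) :
    augment h (evalC W.cX r i j) = (Matrix.single 0 0 1 : M2 (ResidueField 𝒪)) i j := by
  rw [augment_evalC hr]; exact congr_fun (congr_fun W.hX i) j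

theorem augment_Y {h : IsResAlg 𝒪 A} {r : Gal →* M2 A} (hr : Lifts W h r) (i j : Fin 2) :
    augment h (evalC W.cY r i j) = (Matrix.single 1 0 1 : M2 (ResidueField 𝒪)) i j := by
  rw [augment_evalC hr]; exact congr_fun (congr_fun W.hY i) j

theorem isUnit_of_augment_ne_zero (h : IsResAlg 𝒪 A) {a : A} (ha : augment h a ≠ 0) :
    IsUnit a := by
  by_contra hu
  exact ha ((augment_eq_zero_iff h a).mpr hu)

/-- Conjugate normalised lifts are equal. -/
theorem normal_unique {h : IsResAlg 𝒪 A} {r r' : Gal →* M2 A} (hr : Lifts W h r)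
    (hr' : Lifts W h r') (hn : IsNormal W r) (hn' : IsNormal W r') {P : M2 A} (hP : IsUnit P)
    (hconj : ∀ σ, P * r σ = r' σ * P) : r = r' := by
  obtain ⟨hX01, hX10, hY10⟩ := hn
  obtain ⟨hX01', hX10', hY10'⟩ := hn'
  have eX : ∀ i j, (P * evalC W.cX r) i j = (evalC W.cX r' * P) i j := fun i j => by
    rw [evalC_mul_comm W.cX hconj]
  have eY : ∀ i j, (P * evalC W.cY r) i j = (evalC W.cY r' * P) i j := fun i j => by
    rw [evalC_mul_comm W.cY hconj]
  have a00 := augment_X hr 0 0
  have a11 := augment_X hr 1 1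
  have b00 := augment_X hr' 0 0
  have b11 := augment_X hr' 1 1
  simp at a00 a11 b00 b11
  have u1 : IsUnit (evalC W.cX r' 0 0 - evalC W.cX r 1 1) :=
    isUnit_of_augment_ne_zero h (by rw [map_sub, b00, a11, sub_zero]; exact one_ne_zero)
  have u2 : IsUnit (evalC W.cX r 0 0 - evalC W.cX r' 1 1) :=
    isUnit_of_augment_ne_zero h (by rw [map_sub, a00, b11, sub_zero]; exact one_ne_zero)
  have h01 := eX 0 1
  simp [Matrix.mul_apply, Fin.sum_univ_two, hX01, hX01'] at h01
  have hP01 : P 0 1 = 0 := u1.mul_left_eq_zero.mp (by linear_combination -h01)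
  have h10 := eX 1 0
  simp [Matrix.mul_apply, Fin.sum_univ_two, hX10, hX10'] at h10
  have hP10 : P 1 0 = 0 := u2.mul_left_eq_zero.mp (by linear_combination h10)
  have hy := eY 1 0
  simp [Matrix.mul_apply, Fin.sum_univ_two, hY10, hY10', hP10] at hy
  have hP11 : P 1 1 = P 0 0 := by linear_combination hy
  have hPd : IsUnit P.det := (Matrix.isUnit_iff_isUnit_det P).mp hP
  rw [Matrix.det_fin_two, hP01, hP11, zero_mul, sub_zero] at hPd
  have hu : IsUnit (P 0 0) := isUnit_of_mul_isUnit_left hPd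
  have hPeq : P = P 0 0 • (1 : M2 A) := by
    ext i j
    fin_cases i <;> fin_cases j <;> simp [hP01, hP10, hP11]
  refine MonoidHom.ext fun σ => ?_
  have := hconj σ
  rw [hPeq, smul_mul_assoc, mul_smul_comm, one_mul, mul_one] at this
  exact hu.smul_left_cancel.mp this

theorem eq_of_isEquiv {h : IsResAlg 𝒪 A} {r r' : Gal →* M2 A} (hr : Lifts W h r)
    (hr' : Lifts W h r') (hn : IsNormal W r) (hn' : IsNormal W r') {hc : IsCont r}
    {hc' : IsCont r'} (he : (toRep r hc).IsEquiv (toRep r' hc')) : r = r' := by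
  obtain ⟨P, hP, hconj⟩ := exists_conj_of_isEquiv he
  exact normal_unique hr hr' hn hn' hP hconj

theorem Lifts.conj {h : IsResAlg 𝒪 A} {r : Gal →* M2 A} (hr : Lifts W h r) (P : (M2 A)ˣ)
    (hP : (augment h : A →+* ResidueField 𝒪).mapMatrix (P : M2 A) = 1) :
    Lifts W h (conjM P r) := fun σ i j => by
  have hPi : (augment h : A →+* ResidueField 𝒪).mapMatrix (↑P⁻¹ : M2 A) = 1 := by
    have := map_mul (augment h : A →+* ResidueField 𝒪).mapMatrix (↑P⁻¹ : M2 A) (P : M2 A)
    rw [Units.inv_mul, map_one, hP, mul_one] at this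
    exact this.symm
  show (augment h : A →+* ResidueField 𝒪).mapMatrix (conjM P r σ) i j = _
  rw [conjM_apply, map_mul, map_mul, hP, hPi, one_mul, mul_one]
  exact hr σ i j

/-- Every lift to a complete algebra is conjugate to a normalised one. -/
theorem exists_normal [IsAdicComplete (maximalIdeal A) A] {h : IsResAlg 𝒪 A} {r : Gal →* M2 A}
    (hr : Lifts W h r) : ∃ P : (M2 A)ˣ, Lifts W h (conjM P r) ∧ IsNormal W (conjM P r) := by
  classical
  set X := evalC W.cX r with hXdef
  set a := X 0 0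
  set b := X 0 1
  set c := X 1 0
  set d := X 1 1
  have ea : augment h a = 1 := by simpa [Matrix.single_apply] using augment_X hr 0 0
  have eb : augment h b = 0 := by simpa [Matrix.single_apply] using augment_X hr 0 1
  have ec : augment h c = 0 := by simpa [Matrix.single_apply] using augment_X hr 1 0
  have ed : augment h d = 0 := by simpa [Matrix.single_apply] using augment_X hr 1 1
  haveI : HenselianRing A (maximalIdeal A) := IsAdicComplete.henselianRing A _
  obtain ⟨l, hl, hl1⟩ := HenselianRing.is_henselian (I := maximalIdeal A)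
    (Polynomial.X ^ 2 - Polynomial.C (a + d) * Polynomial.X + Polynomial.C (a * d - b * c))
    (by monicity!) 1
    ((augment_eq_zero_iff h _).mp (by
      simp [Polynomial.eval_add, Polynomial.eval_sub, ea, eb, ec, ed]))
    (IsUnit.map _ (isUnit_of_augment_ne_zero h (by
      simp [Polynomial.derivative_pow, ea, ed, map_ofNat]; norm_num)))
  simp only [Polynomial.IsRoot, Polynomial.eval_add, Polynomial.eval_sub, Polynomial.eval_pow,
    Polynomial.eval_X, Polynomial.eval_C, Polynomial.eval_mul] at hl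
  have el : augment h l = 1 := by
    have := (augment_eq_zero_iff h _).mpr hl1
    rwa [map_sub, map_one, sub_eq_zero] at this
  let P1 : M2 A := !![a - (a + d - l), -b; c, l - d]
  have eP1 : (augment h : A →+* ResidueField 𝒪).mapMatrix P1 = 1 := by
    ext i j
    fin_cases i <;> fin_cases j <;> simp [P1, ea, eb, ec, ed, el]
  have hP1 : IsUnit P1 := by
    rw [Matrix.isUnit_iff_isUnit_det]
    refine isUnit_of_augment_ne_zero h ?_
    rw [← RingHom.coe_coe, RingHom.map_det, eP1, Matrix.det_one]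
    exact one_ne_zero
  obtain ⟨u1, hu1⟩ := hP1
  rw [← hu1] at eP1
  set r1 := conjM u1 r
  have hr1 : Lifts W h r1 := hr.conj u1 eP1
  have hconj1 : ∀ σ, (u1 : M2 A) * r1 σ = r σ * u1 := fun σ => by
    rw [conjM_apply, mul_assoc, Units.mul_inv_cancel_left]
  have hX1 : evalC W.cX r1 = Matrix.diagonal ![l, a + d - l] := by
    have h1 : (u1 : M2 A) * evalC W.cX r1 = X * u1 := evalC_mul_comm W.cX hconj1
    simp only [a, b, c, d] at hl
    have h2 : X * (u1 : M2 A) = (u1 : M2 A) * Matrix.diagonal ![l, a + d - l] := by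
      rw [hu1]
      ext i j
      fin_cases i <;> fin_cases j <;>
        simp [P1, Matrix.mul_apply, Fin.sum_univ_two, a, b, c, d] <;>
        first
          | ring1
          | linear_combination hl
          | linear_combination -hl
    exact u1.isUnit.mul_left_cancel (h1.trans h2)
  set s := evalC W.cY r1 1 0
  have es : augment h s = 1 := by simpa [Matrix.single_apply] using augment_Y hr1 1 0
  let D : M2 A := Matrix.diagonal ![1, s]
  have eD : (augment h : A →+* ResidueField 𝒪).mapMatrix D = 1 := by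
    ext i j
    fin_cases i <;> fin_cases j <;> simp [D, es]
  have hD : IsUnit D := by
    rw [Matrix.isUnit_iff_isUnit_det]
    refine isUnit_of_augment_ne_zero h ?_
    rw [← RingHom.coe_coe, RingHom.map_det, eD, Matrix.det_one]
    exact one_ne_zero
  obtain ⟨u2, hu2⟩ := hD
  rw [← hu2] at eD
  have hcomb : conjM (u1 * u2) r = conjM u2 r1 := by
    refine MonoidHom.ext fun σ => ?_
    simp only [r1, conjM_apply, mul_inv_rev, Units.val_mul, mul_assoc]
  refine ⟨u1 * u2, hcomb ▸ hr1.conj u2 eD, ?_⟩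
  rw [hcomb]
  have hconj2 : ∀ σ, (u2 : M2 A) * conjM u2 r1 σ = r1 σ * u2 := fun σ => by
    rw [conjM_apply, mul_assoc, Units.mul_inv_cancel_left]
  have su : IsUnit s := isUnit_of_augment_ne_zero h (by rw [es]; exact one_ne_zero)
  have hX2 := evalC_mul_comm W.cX hconj2
  have hY2 := evalC_mul_comm W.cY hconj2
  rw [hu2, hX1] at hX2
  rw [hu2] at hY2
  refine ⟨?_, ?_, ?_⟩
  · simpa [D, Matrix.mul_apply, Fin.sum_univ_two] using congr_fun (congr_fun hX2 0) 1
  · have := congr_fun (congr_fun hX2 1) 0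
    simp [D, Matrix.mul_apply, Fin.sum_univ_two] at this
    exact su.mul_right_eq_zero.mp this
  · have := congr_fun (congr_fun hY2 1) 0
    simp [D, Matrix.mul_apply, Fin.sum_univ_two] at this
    exact su.mul_left_cancel (this.trans (mul_one s).symm)

end Fermat.Agent.Deform
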