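import Fermat.Agent.Deform.Bound
import Fermat.Agent.Deform.Tower
import Fermat.Prelude.Def_GaloisRep_DeformationRingData

/-!
# Universal objects at all levels from a finite tangent space

`exists_levels` supplies the universal deformations at all finite levels of a deformation
condition, with the bound `card_algHom_le` coming from finiteness of the tangent space.
-/

set_option autoImplicit false
set_option linter.style.haveILetI false

noncomputable section

namespace Fermat.Agent.Deform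

open IsLocalRing Module

variable {𝒪 : Type} [CommRing 𝒪] [IsLocalRing 𝒪] [Finite (ResidueField 𝒪)]
variable {ρbar : ResidualGaloisRep (ResidueField 𝒪)}
variable {𝒟 : ∀ ⦃A : Type⦄ [CommRing A] [IsLocalRing A] [Algebra 𝒪 A], GaloisRepAdic A → Prop}
variable {W : Rigid 𝒪} {bb : Basis (Fin 2) (ResidueField 𝒪) ρbar.V}

theorem baseChangeAlong_residual_congr {k k' : Type} [Field k] [Field k'] [inst : Algebra k k']
    (ρ : ResidualGaloisRep k) (f : k →+* k') (hf : algebraMap k k' = f) :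
    (ρ.baseChange k').IsEquiv (ρ.baseChangeAlong f) := by
  have h3 : inst = f.toAlgebra := Algebra.algebra_ext _ _ (RingHom.congr_fun hf)
  subst h3
  exact ⟨ResidualGaloisRep.Equiv.refl _⟩

theorem card_algHom_le (hW : W.rb = matRes ρbar bb)
    (h𝒟 : GaloisRep.IsDeformationCondition 𝒪 𝒟) (hfin : GaloisRep.TangentFinite 𝒪 ρbar 𝒟) :
    ∃ N : ℕ, letI := dualAlgebra 𝒪; ∀ (n : ℕ) (O : Obj W 𝒟 n),
      Finite (O.carrier →ₐ[𝒪] DualNumber (ResidueField 𝒪)) ∧
      Nat.card (O.carrier →ₐ[𝒪] DualNumber (ResidueField 𝒪)) ≤ N := by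
  letI := dualAlgebra 𝒪
  letI algk : Algebra (ResidueField 𝒪) (ResidueField (DualNumber (ResidueField 𝒪))) :=
    ((IsLocalRing.residue (DualNumber (ResidueField 𝒪))).comp
      (algebraMap (ResidueField 𝒪) (DualNumber (ResidueField 𝒪)))).toAlgebra
  unfold GaloisRep.TangentFinite at hfin
  letI s : Setoid {ρ : GaloisRepAdic (DualNumber (ResidueField 𝒪)) //
      𝒟 ρ ∧ ρ.residual.IsEquiv
        (ρbar.baseChange (ResidueField (DualNumber (ResidueField 𝒪))))} :=
    ⟨fun ρ ρ' => ρ.1.IsEquiv ρ'.1, ⟨fun ρ => isEquiv_refl ρ.1, fun h => isEquiv_symm h,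
      fun h h' => isEquiv_trans h h'⟩⟩
  haveI hfin' : Finite (Quotient s) := hfin
  refine ⟨Nat.card (Quotient s), fun n O => ?_⟩
  have hD := isLevel_dual 𝒪
  haveI := hD.resAlg.isLocalHom
  have hres : algebraMap (ResidueField 𝒪) (ResidueField (DualNumber (ResidueField 𝒪))) =
      ResidueField.map (algebraMap 𝒪 (DualNumber (ResidueField 𝒪))) := by
    refine RingHom.ext fun x => ?_
    obtain ⟨o, rfl⟩ := residue_surjective x
    rfl
  have hgood : ∀ φ : O.carrier →ₐ[𝒪] DualNumber (ResidueField 𝒪),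
      Good W 𝒟 hD.resAlg (mapM (φ : O.carrier →+* DualNumber (ResidueField 𝒪)) O.r) :=
    fun φ => Good.map (hA := O.level.test) hD.test h𝒟 O.good φ (O.level.isLocalHom_algHom φ)
  have hequiv : ∀ φ, (toRep _ (hgood φ).cont).residual.IsEquiv
      (ρbar.baseChange (ResidueField (DualNumber (ResidueField 𝒪)))) := by
    intro φ
    obtain ⟨e⟩ := residual_isEquiv_of_lifts hW hD.resAlg (toRep _ (hgood φ).cont)
      (Pi.basisFun _ _) ((matOf_toRep _ (hgood φ).cont).symm ▸ (hgood φ).lifts)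
    obtain ⟨e'⟩ := baseChangeAlong_residual_congr ρbar _ hres
    exact ⟨e.trans e'.symm⟩
  let Φ : (O.carrier →ₐ[𝒪] DualNumber (ResidueField 𝒪)) → Quotient s := fun φ =>
    Quotient.mk s ⟨toRep _ (hgood φ).cont, (hgood φ).cond, hequiv φ⟩
  have hΦ : Function.Injective Φ := fun φ φ' h =>
    algHom_eq_of_entries O.gen (eq_of_isEquiv (hgood φ).lifts (hgood φ').lifts (hgood φ).normal
      (hgood φ').normal (hc := (hgood φ).cont) (hc' := (hgood φ').cont) (Quotient.exact h))
  exact ⟨Finite.of_injective Φ hΦ, Nat.card_le_card_of_injective Φ hΦ⟩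

theorem good_residual (hW : W.rb = matRes ρbar bb)
    (h𝒟 : GaloisRep.IsDeformationCondition 𝒪 𝒟)
    (hbar : 𝒟 (GaloisRepAdic.ofResidualGaloisRep ρbar)) :
    Good W 𝒟 (isResAlg_residueField (𝒪 := 𝒪)) W.rb := by
  have hk := isLevel_residueField (𝒪 := 𝒪) 0
  let ρ := GaloisRepAdic.ofResidualGaloisRep ρbar
  have hrb : matOf ρ bb = W.rb := by rw [hW]; rfl
  have hid : augment (isResAlg_residueField (𝒪 := 𝒪)) = AlgHom.id 𝒪 _ :=
    (eq_augment _ _ fun a ha => by
      rw [IsLocalRing.maximalIdeal_eq_bot, Ideal.mem_bot] at ha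
      exact ha).symm
  refine ⟨hrb ▸ isCont_matOf ρ bb, fun σ i j => by rw [hid]; rfl, ⟨?_, ?_, ?_⟩, ?_⟩
  · rw [show evalC W.cX W.rb = _ from W.hX]; simp
  · rw [show evalC W.cX W.rb = _ from W.hX]; simp
  · rw [show evalC W.cY W.rb = _ from W.hY]; simp
  · exact h𝒟.of_isEquiv hk.test
      (isEquiv_trans (isEquiv_toRep_matOf ρ bb) (isEquiv_toRep_congr hrb _ _)) hbar

/-- The universal objects at all finite levels. -/
theorem exists_levels [IsNoetherianRing 𝒪] (hW : W.rb = matRes ρbar bb)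
    (h𝒟 : GaloisRep.IsDeformationCondition 𝒪 𝒟)
    (hbar : 𝒟 (GaloisRepAdic.ofResidualGaloisRep ρbar))
    (hfin : GaloisRep.TangentFinite 𝒪 ρbar 𝒟) (n : ℕ) :
    ∃ R : Obj W 𝒟 n, ∀ (A : Type) [CommRing A] [IsLocalRing A] [Algebra 𝒪 A]
      (hA : IsLevel 𝒪 n A) (r : Gal →* M2 A), Good W 𝒟 hA.resAlg r →
        ∃ φ : R.carrier →ₐ[𝒪] A, mapM (φ : R.carrier →+* A) R.r = r := by
  obtain ⟨N, hN⟩ := card_algHom_le hW h𝒟 hfin
  refine exists_universal_level h𝒟 ?_
    (Nat.card (MvPolynomial (Fin N) 𝒪 ⧸ polyIdeal 𝒪 N ^ (n + 1)))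
    fun O => card_le_of_card_algHom O.level N (hN n O).1 (hN n O).2
  obtain ⟨O, -⟩ := exists_obj h𝒟 (isLevel_residueField n) (good_residual hW h𝒟 hbar)
  exact ⟨O⟩

end Fermat.Agent.Deform
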