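import Fermat.Agent.Deform.Main

/-!
# The universal deformation ring

`exists_deformationRingData` assembles the universal deformation ring of an absolutely irreducible
residual representation from the universal objects at finite levels.
-/

set_option autoImplicit false
set_option linter.style.haveILetI false

noncomputable section

namespace Fermat.Agent.Deform

open IsLocalRing Module


theorem exists_deformationRingData (𝒪 : Type) [CommRing 𝒪] [IsDomain 𝒪]
    [IsDiscreteValuationRing 𝒪] [IsAdicComplete (maximalIdeal 𝒪) 𝒪]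
    [Finite (ResidueField 𝒪)] (ρbar : ResidualGaloisRep (ResidueField 𝒪))
    (𝒟 : ∀ ⦃A : Type⦄ [CommRing A] [IsLocalRing A] [Algebra 𝒪 A], GaloisRepAdic A → Prop)
    (habs : ρbar.IsAbsolutelyIrreducible)
    (h𝒟 : GaloisRep.IsDeformationCondition 𝒪 𝒟)
    (hbar : 𝒟 (GaloisRepAdic.ofResidualGaloisRep ρbar))
    (hfin : GaloisRep.TangentFinite 𝒪 ρbar 𝒟) :
    Nonempty (GaloisRep.DeformationRingData 𝒪 ρbar 𝒟) := by
  let bb : Basis (Fin 2) (ResidueField 𝒪) ρbar.V :=
    Module.finBasisOfFinrankEq (ResidueField 𝒪) ρbar.V ρbar.finrank_eq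
  obtain ⟨W, hW⟩ := exists_rigid ρbar habs bb
  choose O huniv using exists_levels (W := W) hW h𝒟 hbar hfin
  -- transition maps
  have htr : ∀ n, ∃ φ : (O (n + 1)).carrier →ₐ[𝒪] (O n).carrier,
      mapM (φ : _ →+* (O n).carrier) (O (n + 1)).r = (O n).r := fun n =>
    huniv (n + 1) (O n).carrier (O n).level.succ (O n).r (O n).good
  choose tr htr using htr
  haveI hfinO : ∀ n, Finite (O n).carrier := fun n => (O n).level.finite
  have hker : ∀ n x, tr n x = 0 → x ∈ maximalIdeal (O (n + 1)).carrier ^ (n + 1) := by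
    intro n x hx
    haveI := isLocalRing_quotient_pow (R := (O (n + 1)).carrier) n
    have hQ := isLevel_quotient (A := (O (n + 1)).carrier) (O (n + 1)).level.resAlg n
    let q := Ideal.Quotient.mkₐ 𝒪 (maximalIdeal (O (n + 1)).carrier ^ (n + 1))
    have hq : Good W 𝒟 hQ.resAlg (mapM (q : _ →+* _) (O (n + 1)).r) :=
      Good.map (hA := (O (n + 1)).level.test) hQ.test h𝒟 (O (n + 1)).good q
        ((O (n + 1)).level.isLocalHom_algHom q)
    obtain ⟨ψ, hψ⟩ := huniv n _ hQ _ hq
    have hcomp : ψ.comp (tr n) = q := algHom_eq_of_entries (O (n + 1)).gen (by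
      rw [← hψ, ← htr n, mapM_mapM]; rfl)
    rw [← Ideal.Quotient.eq_zero_iff_mem]
    show q x = 0
    rw [← hcomp, AlgHom.comp_apply, hx, map_zero]
  let T : Tower 𝒪 :=
    { obj := fun n => (O n).carrier
      tr := tr
      tr_surjective := fun n => surjective_of_entries (O n).gen (tr n) (htr n)
      resAlg := fun n => (O n).level.resAlg
      pow_eq_bot := fun n => (O n).level.pow_eq_bot
      ker_tr := hker }
  -- the universal matrices
  have hmem : ∀ σ i j, (fun n => (O n).r σ i j) ∈ T.lim := fun σ i j n =>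
    congr_fun (congr_fun (DFunLike.congr_fun (htr n) σ) i) j
  let ru : Gal →* M2 T.lim :=
    { toFun := fun σ => Matrix.of fun i j => ⟨fun n => (O n).r σ i j, hmem σ i j⟩
      map_one' := by
        refine Matrix.ext fun i j => Tower.ext_proj fun n => ?_
        show (O n).r 1 i j = T.proj n ((1 : M2 T.lim) i j)
        rw [map_one]
        by_cases hij : i = j
        · subst hij; rw [Matrix.one_apply_eq, Matrix.one_apply_eq, map_one]
        · rw [Matrix.one_apply_ne hij, Matrix.one_apply_ne hij, map_zero]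
      map_mul' := fun σ τ => by
        refine Matrix.ext fun i j => Tower.ext_proj fun n => ?_
        show (O n).r (σ * τ) i j = _
        rw [map_mul, Matrix.mul_apply, Matrix.mul_apply, map_sum]
        refine Finset.sum_congr rfl fun l _ => ?_
        rw [map_mul]
        rfl }
  have hproj : ∀ n, mapM (T.proj n : T.lim →+* (O n).carrier) ru = (O n).r := fun n => by
    refine MonoidHom.ext fun σ => Matrix.ext fun i j => ?_
    rfl
  have hru : IsCont ru := by
    intro m
    rcases m with _ | m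
    · refine ⟨⊥, inferInstance, fun σ _ i j => ?_⟩
      rw [pow_zero, Ideal.one_eq_top]
      exact Submodule.mem_top
    · obtain ⟨L, hL, h1⟩ := (O m).good.cont.finiteLevel (O m).level.pow_eq_bot
      refine ⟨L, hL, fun σ hσ i j => ?_⟩
      rw [Tower.mem_pow_iff, map_sub, sub_eq_zero]
      show (O m).r σ i j = _
      rw [h1 σ hσ]
      by_cases hij : i = j
      · subst hij; rw [Matrix.one_apply_eq, Matrix.one_apply_eq, map_one]
      · rw [Matrix.one_apply_ne hij, Matrix.one_apply_ne hij, map_zero]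
  have hR : IsResAlg 𝒪 T.lim := T.isResAlg_lim
  haveI := hR.isLocalHom
  haveI : IsNoetherianRing T.lim := T.isNoetherianRing_lim
  have hlifts : Lifts W hR ru := by
    refine Lifts.of_map (hB := (O 0).level.resAlg) (T.proj 0) (T.isLocalHom_proj 0) ?_
    rw [hproj]; exact (O 0).good.lifts
  have hnormal : IsNormal W ru := by
    refine ⟨?_, ?_, ?_⟩ <;> refine Tower.ext_proj fun n => ?_ <;>
      rw [← evalC_map, hproj] <;> simp only [map_zero, map_one]
    exacts [(O n).good.normal.1, (O n).good.normal.2.1, (O n).good.normal.2.2]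
  let ρu : GaloisRepAdic T.lim := toRep ru hru
  have hfactor : ∀ {A : Type} [CommRing A] [IsLocalRing A] [Algebra 𝒪 A]
      (q : T.lim →ₐ[𝒪] A) (n : ℕ), IsLocalHom (q : T.lim →+* A) →
      maximalIdeal A ^ (n + 1) = ⊥ → ∃ ψ : (O n).carrier →ₐ[𝒪] A, ψ.comp (T.proj n) = q := by
    intro A _ _ _ q n hq hn
    have hz : ∀ x, T.proj n x = 0 → q x = 0 := by
      intro x hx
      have h1 := Ideal.mem_map_of_mem (q : T.lim →+* A) ((T.mem_pow_iff n x).mpr hx)
      rw [Ideal.map_pow] at h1
      have h2 : (maximalIdeal T.lim).map (q : T.lim →+* A) ≤ maximalIdeal A :=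
        Ideal.map_le_iff_le_comap.mpr fun a ha => map_nonunit (q : T.lim →+* A) a ha
      have h3 := Ideal.pow_right_mono h2 (n + 1) h1
      rwa [hn, Ideal.mem_bot] at h3
    let e := Ideal.quotientKerAlgEquivOfSurjective (T.proj_surjective n)
    have hI : ∀ x, x ∈ RingHom.ker (T.proj n) → q x = 0 := fun x hx => hz x hx
    refine ⟨(Ideal.Quotient.liftₐ (RingHom.ker (T.proj n)) q hI).comp e.symm.toAlgHom,
      AlgHom.ext fun x => ?_⟩
    show Ideal.Quotient.liftₐ (RingHom.ker (T.proj n)) q hI (e.symm (T.proj n x)) = q x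
    rw [show e.symm (T.proj n x) = Ideal.Quotient.mk _ x from e.symm_apply_eq.mpr rfl]
    rfl
  refine ⟨
    { R := T.lim
      residue_surjective := hR.residue_surjective
      absIrr := habs
      ρ := ρu
      isOfType := ?_
      residual_isEquiv := residual_isEquiv_of_lifts hW hR ρu (Pi.basisFun _ _)
        ((matOf_toRep ru hru).symm ▸ hlifts)
      universal := ?_ }⟩
  · refine (h𝒟.iff_forall_surjective hR.isLocalHom hR.residue_surjective ρu).mpr ?_
    intro B _ _ _ hB q hq _
    haveI := hB.isArtinian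
    obtain ⟨N, hN⟩ := (isArtinianRing_iff_isNilpotent_maximalIdeal B).mp inferInstance
    have hN' : maximalIdeal B ^ (N + 1) = ⊥ := by
      rw [pow_succ, hN]; exact zero_mul _
    obtain ⟨ψ, hψ⟩ := hfactor q N hq hN'
    have hloc := (O N).level.isLocalHom_algHom ψ
    have h1 := Good.map (hA := (O N).level.test) hB h𝒟 (O N).good ψ hloc
    have hr : mapM (q : T.lim →+* B) ru = mapM (ψ : _ →+* B) (O N).r := by
      rw [← hproj N, mapM_mapM, ← hψ]; rfl
    exact h𝒟.of_isEquiv hB (isEquiv_symm (isEquiv_trans (isEquiv_baseChangeAlong_toRep _ hq ru hru)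
      (isEquiv_toRep_congr hr _ h1.cont))) h1.cond
  · intro A _ _ _ _ _ _ hAsurj ρA hDA heA
    have hA : IsResAlg 𝒪 A := ⟨inferInstance, hAsurj⟩
    obtain ⟨b, hb⟩ := exists_lifts_basis hW hA ρA heA
    obtain ⟨P, hP, hn⟩ := exists_normal hb
    set rA := conjM P (matOf ρA b)
    have hcA : IsCont rA := (isCont_matOf ρA b).conj P
    have hEA : ρA.IsEquiv (toRep rA hcA) :=
      isEquiv_trans (isEquiv_toRep_matOf ρA b) (isEquiv_conj _ P)
    haveI : ∀ n, IsLocalRing (A ⧸ maximalIdeal A ^ (n + 1)) := fun n => isLocalRing_quotient_pow n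
    have hQ : ∀ n, IsLevel 𝒪 n (A ⧸ maximalIdeal A ^ (n + 1)) := fun n => isLevel_quotient hA n
    let mkA : ∀ n, A →ₐ[𝒪] A ⧸ maximalIdeal A ^ (n + 1) := fun n => Ideal.Quotient.mkₐ 𝒪 _
    have hmkA : ∀ n, IsLocalHom (mkA n : A →+* A ⧸ maximalIdeal A ^ (n + 1)) := fun n =>
      IsLocalHom.of_surjective _ Ideal.Quotient.mk_surjective
    have hgA : ∀ n, Good W 𝒟 (hQ n).resAlg (mapM (mkA n : A →+* _) rA) := fun n =>
      ⟨hcA.map _ (hmkA n), hP.map _ (mkA n) (hmkA n), hn.map (mkA n),
        h𝒟.of_isEquiv (hQ n).test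
          (isEquiv_trans ⟨hEA.some.baseChangeAlong _ (hmkA n)⟩
            (isEquiv_baseChangeAlong_toRep _ (hmkA n) rA hcA))
          ((h𝒟.iff_forall_surjective hA.isLocalHom hA.residue_surjective ρA).mp hDA (hQ n).test
            (mkA n) (hmkA n) Ideal.Quotient.mk_surjective)⟩
    choose ψ hψ using fun n => huniv n _ (hQ n) _ (hgA n)
    let f : ∀ n, T.lim →ₐ[𝒪] A ⧸ maximalIdeal A ^ n := fun n =>
      (Ideal.Quotient.factorₐ 𝒪 (Ideal.pow_le_pow_right (Nat.le_succ n))).comp
        ((ψ n).comp (T.proj n))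
    have hstep : ∀ n (x : T.lim), Ideal.Quotient.factor
        (Ideal.pow_le_pow_right (Nat.le_succ (n + 1))) (ψ (n + 1) (T.proj (n + 1) x)) =
          ψ n (T.proj n x) := by
      intro n x
      rw [← Tower.tr_proj n x]
      have : (Ideal.Quotient.factorₐ 𝒪 (Ideal.pow_le_pow_right (Nat.le_succ (n + 1)))).comp
          (ψ (n + 1)) = (ψ n).comp (tr n) := algHom_eq_of_entries (O (n + 1)).gen (by
        refine MonoidHom.ext fun σ => Matrix.ext fun i j => ?_
        show Ideal.Quotient.factor (Ideal.pow_le_pow_right (Nat.le_succ (n + 1)))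
          (ψ (n + 1) ((O (n + 1)).r σ i j)) = ψ n (tr n ((O (n + 1)).r σ i j))
        rw [show ψ (n + 1) ((O (n + 1)).r σ i j) = _ from
            congr_fun (congr_fun (DFunLike.congr_fun (hψ (n + 1)) σ) i) j,
          show tr n ((O (n + 1)).r σ i j) = _ from
            congr_fun (congr_fun (DFunLike.congr_fun (htr n) σ) i) j,
          show ψ n ((O n).r σ i j) = _ from
            congr_fun (congr_fun (DFunLike.congr_fun (hψ n) σ) i) j]
        rfl)
      exact DFunLike.congr_fun this (T.proj (n + 1) x)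
    have hf : ∀ {m n : ℕ} (hle : m ≤ n),
        (Ideal.Quotient.factorₐ 𝒪 (Ideal.pow_le_pow_right hle)).comp (f n) = f m := by
      intro m n hle
      induction n, hle using Nat.le_induction with
      | base =>
        refine AlgHom.ext fun x => ?_
        obtain ⟨a, ha⟩ := Ideal.Quotient.mk_surjective (f m x)
        rw [AlgHom.comp_apply, ← ha]
        rfl
      | succ n hle ih =>
        rw [← ih]
        refine AlgHom.ext fun x => ?_
        show Ideal.Quotient.factor (Ideal.pow_le_pow_right (hle.trans (Nat.le_succ n)))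
            (Ideal.Quotient.factor (Ideal.pow_le_pow_right (Nat.le_succ (n + 1)))
              (ψ (n + 1) (T.proj (n + 1) x))) =
          Ideal.Quotient.factor (Ideal.pow_le_pow_right hle)
            (Ideal.Quotient.factor (Ideal.pow_le_pow_right (Nat.le_succ n)) (ψ n (T.proj n x)))
        rw [← hstep n x]
        obtain ⟨a, ha⟩ := Ideal.Quotient.mk_surjective (ψ (n + 1) (T.proj (n + 1) x))
        rw [← ha]
        rfl
    let φ : T.lim →ₐ[𝒪] A := IsAdicComplete.liftAlgHom (maximalIdeal A) f hf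
    have hφ : ∀ n x, Ideal.Quotient.mk (maximalIdeal A ^ n) (φ x) = f n x := fun n x =>
      IsAdicComplete.mk_liftAlgHom _ f hf n x
    have hφloc : IsLocalHom (φ : T.lim →+* A) := by
      refine ⟨fun x hx => ?_⟩
      by_contra hnx
      have h0 := (T.mem_maximalIdeal_iff x).mp hnx
      have h1 := hφ 1 x
      have h2 : f 1 x = 0 := by
        show Ideal.Quotient.factor (Ideal.pow_le_pow_right (Nat.le_succ 1)) (ψ 1 (T.proj 1 x)) = 0
        have := hstep 0 x
        rw [h0, map_zero] at this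
        exact this
      rw [h2, Ideal.Quotient.eq_zero_iff_mem, pow_one] at h1
      exact h1 hx
    have hφr : mapM (φ : T.lim →+* A) ru = rA := by
      refine MonoidHom.ext fun σ => Matrix.ext fun i j => ?_
      refine (IsHausdorff.eq_iff_smodEq (I := maximalIdeal A)).mpr fun n => ?_
      rw [SModEq.sub_mem, smul_eq_mul, Ideal.mul_top, ← Ideal.Quotient.eq]
      show Ideal.Quotient.mk (maximalIdeal A ^ n) (φ (ru σ i j)) = _
      rw [hφ]
      show Ideal.Quotient.factor (Ideal.pow_le_pow_right (Nat.le_succ n)) (ψ n ((O n).r σ i j)) = _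
      rw [show ψ n ((O n).r σ i j) = _ from
        congr_fun (congr_fun (DFunLike.congr_fun (hψ n) σ) i) j]
      rfl
    refine ⟨φ, ⟨hφloc, isEquiv_trans (isEquiv_trans (isEquiv_baseChangeAlong_toRep _ hφloc ru hru)
      (isEquiv_toRep_congr hφr _ hcA)) (isEquiv_symm hEA)⟩, ?_⟩
    rintro φ' ⟨hφ'loc, he'⟩
    have hl' : Lifts W hA (mapM (φ' : T.lim →+* A) ru) := hlifts.map hA φ' hφ'loc
    have heq : mapM (φ' : T.lim →+* A) ru = rA :=
      eq_of_isEquiv hl' hP (hnormal.map φ') hn (hc := hru.map _ hφ'loc) (hc' := hcA)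
        (isEquiv_trans (isEquiv_symm (isEquiv_baseChangeAlong_toRep _ hφ'loc ru hru))
          (isEquiv_trans he' hEA))
    refine AlgHom.ext fun x => ?_
    refine (IsHausdorff.eq_iff_smodEq (I := maximalIdeal A)).mpr fun n => ?_
    rw [SModEq.sub_mem, smul_eq_mul, Ideal.mul_top]
    refine Ideal.pow_le_pow_right (Nat.le_succ n) ?_
    rw [← Ideal.Quotient.eq]
    obtain ⟨ψ', hψ'⟩ := hfactor ((mkA n).comp φ') n
      ⟨fun a ha => hφ'loc.map_nonunit a ((hmkA n).map_nonunit _ ha)⟩ (hQ n).pow_eq_bot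
    obtain ⟨ψ'', hψ''⟩ := hfactor ((mkA n).comp φ) n
      ⟨fun a ha => hφloc.map_nonunit a ((hmkA n).map_nonunit _ ha)⟩ (hQ n).pow_eq_bot
    have : ψ' = ψ'' := algHom_eq_of_entries (O n).gen (by
      refine MonoidHom.ext fun σ => Matrix.ext fun i j => ?_
      rw [← hproj n]
      show ψ' (T.proj n (ru σ i j)) = ψ'' (T.proj n (ru σ i j))
      rw [← AlgHom.comp_apply, ← AlgHom.comp_apply, hψ', hψ'']
      show mkA n (φ' (ru σ i j)) = mkA n (φ (ru σ i j))
      rw [show φ' (ru σ i j) = rA σ i j from congr_fun (congr_fun (DFunLike.congr_fun heq σ) i) j,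
        show φ (ru σ i j) = rA σ i j from congr_fun (congr_fun (DFunLike.congr_fun hφr σ) i) j])
    rw [this] at hψ'
    exact DFunLike.congr_fun (hψ'.symm.trans hψ'') x

end Fermat.Agent.Deform
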